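import Mathlib
import Fermat.Agent.MUL.Lib.BadRed.KroneckerCharpolyGen
import Fermat.Agent.MUL.Lib.BadRed.Bridge.NormAt
import Fermat.Agent.MUL.Orig.Lib.BadRed.Bridge.NormRed
import Fermat.Agent.MUL.Orig.Lib.GaussInt.ValGroup
import Fermat.Agent.MUL.S36.HPVal.KCtPole
import Fermat.Agent.MUL.S36.HPVal.Deg
import Fermat.Agent.MUL.S36.HPVal.InertFinal

section MergeWrap_Lib_BadRed_KroneckerCharpolyLQ -- from Lib/BadRed/KroneckerCharpolyLQ.lean

set_option autoImplicit false
set_option linter.style.haveILetI false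
set_option linter.unusedSectionVars false

noncomputable section

namespace Fermat.Agent.BadRed

/- build-time recipe (helper70): the two instances found by typeclass search, tried first. -/
attribute [local instance 10000] SubalgebraClass.toAlgebra HahnSeries.powerSeriesAlgebra


open ModularCurve AlgebraicCurve Fermat.Agent.GaussInt Polynomial Fermat.Agent.Kronecker
  Fermat.Agent.F3 Fermat.Agent.F3G Fermat.Agent.S24 Fermat.Agent.S24.EmbFHom
  Fermat.Agent.AtkinLehner
open scoped MatrixGroups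

local notation "Qb" => AlgebraicClosure ℚ

variable (N ℓ : ℕ) [NeZero N] [NeZero ℓ]

/-- the reduced polynomial `(X - ȳ) (X^ℓ - τ w̄)` -/
def kclqPoly (k : Type*) [Field k] [Fact ℓ.Prime] [CharP k ℓ] (r s : LaurentSeries k) :
    (LaurentSeries k)[X] :=
  (X - Polynomial.C r) * (X ^ ℓ - Polynomial.C (coeffMap (frobenius k ℓ) s))

theorem kclqPoly_natDegree_le (k : Type*) [Field k] [Fact ℓ.Prime] [CharP k ℓ]
    (r s : LaurentSeries k) : (kclqPoly ℓ k r s).natDegree ≤ ℓ + 1 := by
  rw [kclqPoly]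
  refine le_trans Polynomial.natDegree_mul_le ?_
  have h1 : (X - Polynomial.C r).natDegree ≤ 1 := by
    rw [Polynomial.natDegree_X_sub_C]
  have h2 : (X ^ ℓ - Polynomial.C (coeffMap (frobenius k ℓ) s)).natDegree ≤ ℓ := by
    rw [Polynomial.natDegree_X_pow_sub_C]
  omega

/-- **(K-LQ)** the Kronecker congruence for the characteristic polynomial over `F_N` of a function
`y` of level `N ℓ` such that `y` and `w y` are Gauss-integral: there is `P ∈ O_v[X]`, monic of
degree `ℓ + 1`, which maps to the characteristic polynomial of `y` along `heckeAlphaBar` and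
reduces to `(X - ȳ) (X^ℓ - τ (w y)‾)`. -/
def KroneckerCharpolyLQ (N ℓ : ℕ) [NeZero N] [NeZero ℓ] [Fact ℓ.Prime] : Prop :=
  ∀ (hℓ : ℓ.Prime) (A : ValuationSubring Qb) (hA : A.LiesOverPrime ℓ)
    [CharP (IsLocalRing.ResidueField A) ℓ]
    (hfin : FiniteAlong Qb (heckeAlphaBar Qb N ℓ))
    (D : ALData) (_hQ : D.Q = ℓ) (_hR : D.R = N) (hM : N * ℓ = D.Q * D.R)
    (y wy : ↥(gaussOvS (N * ℓ) hℓ A hA))
    (_hwy : wAt D hM (y : ↥(modularFunctionFieldBar (N * ℓ))) =
      (wy : ↥(modularFunctionFieldBar (N * ℓ)))),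
    ∃ P : (↥(gaussOvS N hℓ A hA))[X],
      P.Monic ∧ P.natDegree = ℓ + 1 ∧
      P.map (gaussOvS N hℓ A hA).subtype =
        charpolyAlong (heckeAlphaBar Qb N ℓ) hfin (y : ↥(modularFunctionFieldBar (N * ℓ))) ∧
      P.map (gaussOvRes N hℓ A hA) =
        kclqPoly ℓ (IsLocalRing.ResidueField A) (gaussOvRes (N * ℓ) hℓ A hA y)
          (gaussOvRes (N * ℓ) hℓ A hA wy)

section Norm

variable {N ℓ}

/-- the value group property of the Gauss valuation of `F_N`, in the shape of
`gaussResFun_norm_formal`. -/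
theorem kclq_hval (hℓ : ℓ.Prime) (A : ValuationSubring Qb) (hA : A.LiesOverPrime ℓ) :
    ∀ z : LaurentSeries Qb, z ∈ modularFunctionFieldBar N → z ≠ 0 → ∃ c : Qb, c ≠ 0 ∧
      algebraMap Qb (LaurentSeries Qb) c * z ∈ gaussSub A (modularFunctionFieldBar N) ∧
      gaussResFun A (modularFunctionFieldBar N) (algebraMap Qb (LaurentSeries Qb) c * z) ≠ 0 := by
  intro z hz hz0
  exact valueGroupAt N ℓ hℓ A hA ⟨z, hz⟩ (fun h0 => hz0 (congrArg Subtype.val h0))

/-- **Kronecker congruence for norms of Gauss units of level `N ℓ`**: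
`ρ(Norm_α x) = ρ(x) · τ ρ(w x)`. -/
theorem kclq_norm [Fact ℓ.Prime] (hℓN : ¬ ℓ ∣ N) (A : ValuationSubring Qb)
    (hA : A.LiesOverPrime ℓ) [CharP (IsLocalRing.ResidueField A) ℓ]
    (D : ALData) (hQ : D.Q = ℓ) (hR : D.R = N) (hM : N * ℓ = D.Q * D.R)
    (x : ↥(modularFunctionFieldBar (N * ℓ)))
    (hx : (x : LaurentSeries Qb) ∈ gaussSub A (modularFunctionFieldBar (N * ℓ)))
    (hxr : gaussResFun A (modularFunctionFieldBar (N * ℓ)) (x : LaurentSeries Qb) ≠ 0)
    (hwx : ((wAt D hM x : ↥(modularFunctionFieldBar (N * ℓ))) : LaurentSeries Qb) ∈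
      gaussSub A (modularFunctionFieldBar (N * ℓ)))
    (hwxr : gaussResFun A (modularFunctionFieldBar (N * ℓ))
      ((wAt D hM x : ↥(modularFunctionFieldBar (N * ℓ))) : LaurentSeries Qb) ≠ 0) :
    ((normAlong (heckeAlphaBar Qb N ℓ) x : ↥(modularFunctionFieldBar N)) : LaurentSeries Qb) ∈
        gaussSub A (modularFunctionFieldBar N) ∧
      gaussResFun A (modularFunctionFieldBar N)
          ((normAlong (heckeAlphaBar Qb N ℓ) x : ↥(modularFunctionFieldBar N)) :
            LaurentSeries Qb) =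
        gaussResFun A (modularFunctionFieldBar (N * ℓ)) (x : LaurentSeries Qb) *
          coeffMap (frobenius (IsLocalRing.ResidueField A) ℓ)
            (gaussResFun A (modularFunctionFieldBar (N * ℓ))
              ((wAt D hM x : ↥(modularFunctionFieldBar (N * ℓ))) : LaurentSeries Qb)) := by
  have hℓ : ℓ.Prime := Fact.out
  obtain ⟨ζ, hζ, hexp⟩ := norm_expansion_wAt hℓ hℓN D hQ hR hM
  exact gaussResFun_norm_formal A ℓ (modularFunctionFieldBar N)
    (modularFunctionFieldBar (N * ℓ)) (modularFunctionFieldBar (N * ℓ)) (kclq_hval hℓ A hA) ζ hζ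
    hx hxr hwx hwxr (SetLike.coe_mem _) (hexp x)

end Norm

section KC

variable {N ℓ}

/-- `n` elements of `A` with pairwise distinct residues avoiding a finite set. -/
theorem kclq_exists_nodes (A : ValuationSubring Qb) (n : ℕ)
    (S : Set (IsLocalRing.ResidueField A)) (hS : S.Finite) :
    ∃ a : Fin n → A, (Function.Injective fun i => IsLocalRing.residue A (a i)) ∧
      ∀ i, IsLocalRing.residue A (a i) ∉ S := by
  haveI : IsAlgClosed (IsLocalRing.ResidueField A) :=
    Fermat.Agent.FrobTrace.isAlgClosed_residueField A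
  haveI : Infinite (IsLocalRing.ResidueField A) := IsAlgClosed.instInfinite
  have hinf : Sᶜ.Infinite := hS.infinite_compl
  let e : ℕ ↪ ↥Sᶜ := hinf.natEmbedding _
  choose g hg using fun x : IsLocalRing.ResidueField A => IsLocalRing.residue_surjective x
  refine ⟨fun i => g ((e i : ↥Sᶜ) : IsLocalRing.ResidueField A), ?_, ?_⟩
  · intro i j hij
    simp only [hg] at hij
    exact Fin.val_injective (e.injective (Subtype.ext hij))
  · intro i
    rw [hg]
    exact (e i).2

set_option maxHeartbeats 1000000 in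
set_option synthInstance.maxHeartbeats 400000 in
/-- **(K-LQ)** the Kronecker congruence for the characteristic polynomial of a function of level
`N ℓ` which is Gauss-integral together with its Atkin–Lehner transform. -/
theorem kroneckerCharpolyLQ [Fact ℓ.Prime] (hℓN : ¬ ℓ ∣ N) : KroneckerCharpolyLQ N ℓ := by
  intro hℓ A hA _ hfin
  classical
  set k := IsLocalRing.ResidueField A with hk
  set O := gaussOvS N hℓ A hA with hO
  set ρ := gaussOvRes N hℓ A hA with hρ
  set O' := gaussOvS (N * ℓ) hℓ A hA with hO'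
  set ρ' := gaussOvRes (N * ℓ) hℓ A hA with hρ'
  intro D hQ hR hM y wy hwy
  have hrank : finrankAlong Qb (heckeAlphaBar Qb N ℓ) = ℓ + 1 :=
    (finrank_heckeAlphaBar N ℓ hℓ hℓN).2
  set C := charpolyAlong (heckeAlphaBar Qb N ℓ) hfin (y : ↥(modularFunctionFieldBar (N * ℓ)))
    with hC
  have hCm : C.Monic := charpolyAlong_monic _ _ _
  have hCd : C.natDegree = ℓ + 1 := by rw [hC, charpolyAlong_natDegree, hrank]
  -- the nodes, avoiding the (at most two) constants equal to `ρ' y` or `ρ' (w y)`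
  have hinjk : Function.Injective (algebraMap k (LaurentSeries k)) :=
    (algebraMap k (LaurentSeries k)).injective
  have hSfin : ((algebraMap k (LaurentSeries k)) ⁻¹' {ρ' y, ρ' wy}).Finite :=
    (Set.toFinite {ρ' y, ρ' wy}).preimage hinjk.injOn
  obtain ⟨a, ha, haS⟩ := kclq_exists_nodes A (ℓ + 1 + 1) _ hSfin
  have hay : ∀ i, algebraMap k (LaurentSeries k) (IsLocalRing.residue A (a i)) - ρ' y ≠ 0 := by
    intro i h0
    exact haS i (by
      rw [Set.mem_preimage, sub_eq_zero.mp h0]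
      exact Set.mem_insert _ _)
  have hawy : ∀ i, algebraMap k (LaurentSeries k) (IsLocalRing.residue A (a i)) - ρ' wy ≠ 0 := by
    intro i h0
    exact haS i (by
      rw [Set.mem_preimage, sub_eq_zero.mp h0]
      exact Set.mem_insert_of_mem _ (Set.mem_singleton _))
  let c : Fin (ℓ + 1 + 1) → ↥(modularFunctionFieldBar N) :=
    fun i => algebraMap Qb ↥(modularFunctionFieldBar N) ((a i : A) : Qb)
  let c' : Fin (ℓ + 1 + 1) → ↥(modularFunctionFieldBar (N * ℓ)) :=
    fun i => algebraMap Qb ↥(modularFunctionFieldBar (N * ℓ)) ((a i : A) : Qb)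
  have hcO : ∀ i, c i ∈ O := fun i => const_mem_gaussOvS N hℓ A hA (a i)
  have hcO' : ∀ i, c' i ∈ O' := fun i => const_mem_gaussOvS (N * ℓ) hℓ A hA (a i)
  have hcinj : Function.Injective c := by
    intro i j hij
    apply ha
    have h1 : ((a i : A) : Qb) = ((a j : A) : Qb) :=
      (algebraMap Qb ↥(modularFunctionFieldBar N)).injective hij
    show IsLocalRing.residue A (a i) = IsLocalRing.residue A (a j)
    rw [Subtype.ext h1]
  have hunit : ∀ i j, i ≠ j → (c i - c j)⁻¹ ∈ O := by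
    intro i j hij
    have hne : IsLocalRing.residue A (a i - a j) ≠ 0 := by
      rw [map_sub, sub_ne_zero]
      exact fun h => hij (ha h)
    have hu : IsUnit (a i - a j) := by
      by_contra hnu
      exact hne ((IsLocalRing.residue_eq_zero_iff _).mpr ((IsLocalRing.mem_maximalIdeal _).mpr hnu))
    obtain ⟨u, hu⟩ := hu
    have h1 : (c i - c j)⁻¹ =
        algebraMap Qb ↥(modularFunctionFieldBar N) (((u⁻¹ : (↥A)ˣ) : A) : Qb) := by
      rw [← map_sub, ← map_inv₀]
      congr 1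
      have h2 : ((u : A) : Qb) * (((u⁻¹ : (↥A)ˣ) : A) : Qb) = 1 := by
        rw [← MulMemClass.coe_mul, Units.mul_inv]; rfl
      have h3 : ((a i : A) : Qb) - ((a j : A) : Qb) = ((u : A) : Qb) := by
        rw [hu]; rfl
      rw [h3]
      exact (eq_inv_of_mul_eq_one_right h2).symm
    rw [h1]
    exact const_mem_gaussOvS N hℓ A hA _
  -- values: `C (c i) = Norm_α (c i - y)`
  have hev : ∀ i, C.eval (c i) =
      normAlong (heckeAlphaBar Qb N ℓ) (c' i - (y : ↥(modularFunctionFieldBar (N * ℓ)))) := by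
    intro i
    rw [hC, eval_charpolyAlong, AlgHom.commutes]
    rfl
  have hxO' : ∀ i, c' i - (y : ↥(modularFunctionFieldBar (N * ℓ))) ∈ O' := fun i =>
    O'.sub_mem (hcO' i) y.2
  have hwx : ∀ i, wAt D hM (c' i - (y : ↥(modularFunctionFieldBar (N * ℓ)))) =
      c' i - (wy : ↥(modularFunctionFieldBar (N * ℓ))) := by
    intro i
    rw [map_sub, AlgEquiv.commutes, hwy]
  have hwxO' : ∀ i, c' i - (wy : ↥(modularFunctionFieldBar (N * ℓ))) ∈ O' := fun i =>
    O'.sub_mem (hcO' i) wy.2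
  have hρsub : ∀ (i) (z : ↥O'), gaussResFun A (modularFunctionFieldBar (N * ℓ))
      (((c' i - (z : ↥(modularFunctionFieldBar (N * ℓ))) :
        ↥(modularFunctionFieldBar (N * ℓ)))) : LaurentSeries Qb) =
      algebraMap k (LaurentSeries k) (IsLocalRing.residue A (a i)) - ρ' z := by
    intro i z
    have h1 : ρ' (⟨c' i, hcO' i⟩ - z) = ρ' ⟨c' i, hcO' i⟩ - ρ' z := map_sub ρ' _ _
    rw [hρ', gaussOvRes_const] at h1
    rw [← h1]
    rfl
  have hK : ∀ i, _ := fun i =>
    kclq_norm hℓN A hA D hQ hR hM (c' i - (y : ↥(modularFunctionFieldBar (N * ℓ)))) (hxO' i)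
      (by rw [hρsub i y]; exact hay i)
      (by rw [hwx i]; exact hwxO' i)
      (by rw [hwx i, hρsub i wy]; exact hawy i)
  have hval : ∀ i, C.eval (c i) ∈ O := fun i => by
    rw [hev]
    exact (hK i).1
  have hvalr : ∀ i, ρ ⟨C.eval (c i), hval i⟩ =
      (algebraMap k (LaurentSeries k) (IsLocalRing.residue A (a i)) - ρ' y) *
        (algebraMap k (LaurentSeries k) (IsLocalRing.residue A (a i) ^ ℓ) -
          coeffMap (frobenius k ℓ) (ρ' wy)) := by
    intro i
    have h1 : ρ ⟨C.eval (c i), hval i⟩ =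
        gaussResFun A (modularFunctionFieldBar N)
          ((normAlong (heckeAlphaBar Qb N ℓ) (c' i - (y : ↥(modularFunctionFieldBar (N * ℓ)))) :
            ↥(modularFunctionFieldBar N)) : LaurentSeries Qb) := by
      rw [hρ, gaussOvRes_apply]
      show gaussResFun A (modularFunctionFieldBar N)
        ((C.eval (c i) : ↥(modularFunctionFieldBar N)) : LaurentSeries Qb) = _
      rw [hev]
    rw [h1, (hK i).2, hwx i, hρsub i y, hρsub i wy, map_sub, kcg_algebraMap_frob]
  obtain ⟨P, hP⟩ := exists_lift_of_eval_mem O C (ℓ + 1) (le_of_eq hCd) c hcinj hcO hunit hval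
  have hPdeg' : P.natDegree = ℓ + 1 := by
    rw [← hCd, ← hP]
    exact (Polynomial.natDegree_map_eq_of_injective Subtype.val_injective P).symm
  have hPm : P.Monic := by
    have h1 : (P.map O.subtype).Monic := by rw [hP]; exact hCm
    exact Polynomial.monic_of_injective Subtype.val_injective h1
  refine ⟨P, hPm, hPdeg', hP, ?_⟩
  refine map_eq_of_eval_eq O ρ P (ℓ + 1) (le_of_eq hPdeg') (fun i => ⟨c i, hcO i⟩) ?_
    (kclqPoly ℓ k (ρ' y) (ρ' wy)) (kclqPoly_natDegree_le ℓ k _ _) ?_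
  · intro i j hij
    simp only at hij
    rw [hρ, gaussOvRes_const, gaussOvRes_const] at hij
    exact ha ((algebraMap k (LaurentSeries k)).injective hij)
  · intro i
    have hevP : (P.eval (⟨c i, hcO i⟩ : ↥O)) = ⟨C.eval (c i), hval i⟩ := by
      apply Subtype.ext
      show ((P.eval (⟨c i, hcO i⟩ : ↥O) : ↥O) : ↥(modularFunctionFieldBar N)) = C.eval (c i)
      rw [← hP, Polynomial.eval_map]
      exact (Polynomial.hom_eval₂ P (RingHom.id _) O.subtype ⟨c i, hcO i⟩)
    rw [hevP, hvalr, hρ, gaussOvRes_const, kclqPoly, Polynomial.eval_mul, Polynomial.eval_sub,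
      Polynomial.eval_sub, Polynomial.eval_X, Polynomial.eval_pow, Polynomial.eval_X,
      Polynomial.eval_C, Polynomial.eval_C, map_pow]

/-- `y` is a root of its characteristic polynomial. -/
theorem kclq_root (hfin : FiniteAlong Qb (heckeAlphaBar Qb N ℓ))
    (y : ↥(modularFunctionFieldBar (N * ℓ))) :
    (charpolyAlong (heckeAlphaBar Qb N ℓ) hfin y).eval₂
      ((heckeAlphaBar Qb N ℓ : ↥(modularFunctionFieldBar N) →+*
        ↥(modularFunctionFieldBar (N * ℓ)))) y = 0 :=
  aeval_charpolyAlong (heckeAlphaBar Qb N ℓ) hfin _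

end KC

end Fermat.Agent.BadRed
end
end MergeWrap_Lib_BadRed_KroneckerCharpolyLQ

section MergeWrap_Lib_BadRed_KroneckerCharpolyLQPole -- from Lib/BadRed/KroneckerCharpolyLQPole.lean

set_option autoImplicit false
set_option linter.style.haveILetI false
set_option linter.unusedSectionVars false
set_option linter.unusedVariables false
set_option synthInstance.maxHeartbeats 400000

noncomputable section

namespace Fermat.Agent.S36

open ModularCurve AlgebraicCurve Polynomial Fermat.Agent.BadRed Fermat.Agent.AtkinLehner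
  Fermat.Agent.HPVal Fermat.Agent.F3G Fermat.Agent.S36G

local notation "Qb" => AlgebraicClosure ℚ

variable (N ℓ : ℕ) [NeZero N] [NeZero ℓ]

/-- **(K')** the coefficients of the characteristic polynomial over `F_N` (along `α`) of a
function `y` of level `N ℓ` with poles only at the poles of `α j` have poles only at the poles of
`j`. -/
theorem kclqp_charpoly_coeff (hfin : FiniteAlong Qb (heckeAlphaBar Qb N ℓ))
    (y : ↥(modularFunctionFieldBar (N * ℓ)))
    (hy : ∀ w : Place Qb ↥(modularFunctionFieldBar (N * ℓ)),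
      0 ≤ w.ord (heckeAlphaBar Qb N ℓ (Fermat.Agent.S24.jBar N)) → 0 ≤ w.ord y)
    (Q : Place Qb ↥(modularFunctionFieldBar N)) (hQ : 0 ≤ Q.ord (Fermat.Agent.S24.jBar N))
    (i : ℕ) :
    0 ≤ Q.ord ((charpolyAlong (heckeAlphaBar Qb N ℓ) hfin y).coeff i) := by
  have hα := kcp_isIntegral (heckeAlphaBar Qb N ℓ)
  haveI : HasPrincipalDivisors Qb ↥(modularFunctionFieldBar (N * ℓ)) :=
    kcp_hasPrincipalDivisors (N * ℓ)
  have H : NormFormulaAlong Qb (heckeAlphaBar Qb N ℓ) hfin :=
    Fermat.Agent.HeckeInputs.hi_normFormulaAlong (heckeAlphaBar Qb N ℓ) hfin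
      (Fermat.Agent.S24.isFunctionFieldOver_jBar N)
      (Fermat.Agent.S24.isFunctionFieldOver_jBar (N * ℓ))
  refine cpole_charpoly_coeff (heckeAlphaBar Qb N ℓ) hα hfin H Q _ (fun w hw => ?_) i
  refine hy w ?_
  rw [← cpole_ord_restrictAlong_nonneg_iff (heckeAlphaBar Qb N ℓ) hα, hw]
  exact hQ

/-- the same for any polynomial `P` over a subring of `F_N` which maps to the characteristic
polynomial (e.g. the `P` of `KroneckerCharpolyLQ`, over the Gauss ring). -/
theorem kclqp_coeff_of_map (hfin : FiniteAlong Qb (heckeAlphaBar Qb N ℓ))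
    (y : ↥(modularFunctionFieldBar (N * ℓ)))
    (hy : ∀ w : Place Qb ↥(modularFunctionFieldBar (N * ℓ)),
      0 ≤ w.ord (heckeAlphaBar Qb N ℓ (Fermat.Agent.S24.jBar N)) → 0 ≤ w.ord y)
    (B : Subring ↥(modularFunctionFieldBar N)) (P : (↥B)[X])
    (hP : P.map B.subtype = charpolyAlong (heckeAlphaBar Qb N ℓ) hfin y)
    (Q : Place Qb ↥(modularFunctionFieldBar N)) (hQ : 0 ≤ Q.ord (Fermat.Agent.S24.jBar N))
    (i : ℕ) :
    0 ≤ Q.ord ((P.coeff i : ↥(modularFunctionFieldBar N))) := by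
  have h := kclqp_charpoly_coeff N ℓ hfin y hy Q hQ i
  rw [← hP, Polynomial.coeff_map] at h
  exact h

/-- **the Atkin–Lehner involution at `ℓ` permutes the cusps**: `w y` has poles only at the poles of
`α j` if `y` has. -/
theorem kclqp_ord_wAt (hℓ : ℓ.Prime) (hℓN : ¬ ℓ ∣ N) (D : ALData) (hQ : D.Q = ℓ) (hR : D.R = N)
    (hM : N * ℓ = D.Q * D.R) (y : ↥(modularFunctionFieldBar (N * ℓ)))
    (hy : ∀ w : Place Qb ↥(modularFunctionFieldBar (N * ℓ)),
      0 ≤ w.ord (heckeAlphaBar Qb N ℓ (Fermat.Agent.S24.jBar N)) → 0 ≤ w.ord y)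
    (w : Place Qb ↥(modularFunctionFieldBar (N * ℓ)))
    (hw : 0 ≤ w.ord (heckeAlphaBar Qb N ℓ (Fermat.Agent.S24.jBar N))) :
    0 ≤ w.ord (wAt D hM y) := by
  set g : SemilinearAut Qb ↥(modularFunctionFieldBar (N * ℓ)) :=
    SemilinearAut.ofAlgAut (wAt D hM) with hg
  have key : ∀ f : ↥(modularFunctionFieldBar (N * ℓ)), w.ord (wAt D hM f) = (g⁻¹ • w).ord f := by
    intro f
    have h := SemilinearAut.ord_smul g (g⁻¹ • w) f
    rw [smul_inv_smul] at h
    rw [← h]
    rfl
  rw [key]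
  apply hy
  rw [← key, wpd_wAt_alpha D hQ hR hM]
  exact kcp_ord_beta_jBar N ℓ hℓ hℓN w hw

/-- **(K')** for `w y`: the coefficients of the characteristic polynomial of `w y` have poles only
at the poles of `j`. -/
theorem kclqp_charpoly_coeff_wAt (hℓ : ℓ.Prime) (hℓN : ¬ ℓ ∣ N)
    (hfin : FiniteAlong Qb (heckeAlphaBar Qb N ℓ)) (D : ALData) (hQ : D.Q = ℓ) (hR : D.R = N)
    (hM : N * ℓ = D.Q * D.R) (y : ↥(modularFunctionFieldBar (N * ℓ)))
    (hy : ∀ w : Place Qb ↥(modularFunctionFieldBar (N * ℓ)),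
      0 ≤ w.ord (heckeAlphaBar Qb N ℓ (Fermat.Agent.S24.jBar N)) → 0 ≤ w.ord y)
    (Q : Place Qb ↥(modularFunctionFieldBar N)) (hQj : 0 ≤ Q.ord (Fermat.Agent.S24.jBar N))
    (i : ℕ) :
    0 ≤ Q.ord ((charpolyAlong (heckeAlphaBar Qb N ℓ) hfin (wAt D hM y)).coeff i) :=
  kclqp_charpoly_coeff N ℓ hfin (wAt D hM y)
    (fun w hw => kclqp_ord_wAt N ℓ hℓ hℓN D hQ hR hM y hy w hw) Q hQj i

end Fermat.Agent.S36
end
end MergeWrap_Lib_BadRed_KroneckerCharpolyLQPole
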